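import Fermat.Agent.Molien.Invariants

/-!
# The degrees of basic invariants

Molien's series at `t = 1`: the leading term gives `|G| = ∏ dᵢ`, the next one the number of
pseudo-reflections `∑ (dᵢ - 1)`, as those with eigenvalues `λ` and `λ⁻¹` pair off.
-/

set_option autoImplicit false

noncomputable section

open Polynomial Finset

namespace FA.Molien

open Fermat.Agent.ReflectionGroups

variable {n : ℕ} {k : Type*} [Field k]

/-- Rank at most one by minors. -/
theorem rank_le_one_iff (M : Matrix (Fin n) (Fin n) k) :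
    M.rank ≤ 1 ↔ ∀ i j a b, M i j * M a b = M i b * M a j := by
  constructor
  · intro h i j a b
    obtain ⟨⟨v, _⟩, hv⟩ := finrank_le_one_iff.1 h
    have hcol : ∀ j, ∃ c : k, ∀ i, M i j = c * v i := fun j => by
      obtain ⟨c, hc⟩ := hv ⟨_, LinearMap.mem_range_self M.mulVecLin (Pi.single j 1)⟩
      refine ⟨c, fun i => ?_⟩
      have := congrFun (congrArg Subtype.val hc) i
      simpa using this.symm
    obtain ⟨c, hc⟩ := hcol j
    obtain ⟨c', hc'⟩ := hcol b
    rw [hc, hc', hc, hc']
    ring
  · intro h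
    by_cases h0 : M = 0
    · rw [h0, Matrix.rank_zero]
      exact zero_le_one
    obtain ⟨i₀, j₀, hne⟩ : ∃ i j, M i j ≠ 0 := by
      by_contra! hall
      exact h0 (Matrix.ext hall)
    rw [show M = Matrix.vecMulVec (fun i => M i j₀ / M i₀ j₀) (fun j => M i₀ j) by
      ext i j
      rw [Matrix.vecMulVec_apply, div_mul_eq_mul_div, eq_div_iff hne, h i j i₀ j₀]]
    exact Matrix.rank_vecMulVec_le _ _

theorem rank_le_one_map {K : Type*} [Field K] (φ : k →+* K) (M : Matrix (Fin n) (Fin n) k) :
    (M.map φ).rank ≤ 1 ↔ M.rank ≤ 1 := by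
  simp only [rank_le_one_iff, Matrix.map_apply, ← map_mul, φ.injective.eq_iff]

theorem charpolyRev_map {K : Type*} [Field K] (φ : k →+* K) (M : Matrix (Fin n) (Fin n) k) :
    (M.map φ).charpolyRev = M.charpolyRev.map φ := by
  rw [Matrix.charpolyRev, Matrix.charpolyRev, ← Polynomial.coe_mapRingHom, RingHom.map_det]
  congr 1
  ext i j
  simp [Matrix.one_apply, apply_ite]

/-- `det (1 - t g)` with its root `1` split off. -/
theorem exists_split [CharZero k] {A : Matrix (Fin n) (Fin n) k} {N : ℕ}
    (hN : 0 < N) (hA : A ^ N = 1) :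
    ∃ (m : ℕ) (P : Polynomial (AlgebraicClosure k)), m ≤ n ∧
      A.charpolyRev.map (algebraMap k _) = (1 - X) ^ m * P ∧ P.eval 1 ≠ 0 ∧
      (m = n ↔ A = 1) ∧ (m = n → P = 1) ∧ (n ≤ m + 1 ↔ (A - 1).rank ≤ 1) ∧
      (m + 1 = n → P.eval 1 = 1 - algebraMap k _ A.det) := by
  classical
  set φ := algebraMap k (AlgebraicClosure k)
  have hAK : (A.map φ) ^ N = 1 := by
    rw [← RingHom.mapMatrix_apply, ← map_pow, hA, map_one]
  obtain ⟨P, Q, e, hPQ, hQP, hAe, -⟩ := exists_diagonal hN hAK
  set S := univ.filter fun i => e i = 1 with hS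
  set T := univ.filter fun i => ¬e i = 1 with hT
  have hcard : S.card + T.card = n := by
    rw [card_filter_add_card_filter_not, card_univ, Fintype.card_fin]
  have hdiag : Matrix.diagonal e = 1 ↔ ∀ i, e i = 1 := by
    rw [← Matrix.diagonal_one]
    exact Matrix.diagonal_eq_diagonal_iff
  refine ⟨S.card, ∏ i ∈ T, (1 - X * C (e i)), by omega, ?_, ?_, ?_, fun h => ?_, ?_, fun h => ?_⟩
  · rw [← charpolyRev_map, charpolyRev_conj hPQ hAe,
      ← Finset.prod_filter_mul_prod_filter_not univ fun i => e i = 1]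
    congr 1
    exact Finset.prod_eq_pow_card fun i hi => by rw [(mem_filter.1 hi).2, C_1, mul_one]
  · rw [eval_prod]
    refine Finset.prod_ne_zero_iff.2 fun i hi => ?_
    intro h0
    exact (mem_filter.1 hi).2 (sub_eq_zero.1 (by simpa using h0)).symm
  · have h1 : A.map φ = 1 ↔ Matrix.diagonal e = 1 := by
      refine ⟨fun h => ?_, fun h => by rw [hAe, h, mul_one, hPQ]⟩
      calc Matrix.diagonal e = Q * P * Matrix.diagonal e * (Q * P) := by
            rw [hQP, one_mul, mul_one]
        _ = Q * (P * Matrix.diagonal e * Q) * P := by simp only [mul_assoc]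
        _ = 1 := by rw [← hAe, h, mul_one, hQP]
    have h2 : A.map φ = 1 ↔ A = 1 := by
      rw [← Matrix.map_one φ (map_zero φ) (map_one φ)]
      exact (Matrix.map_injective φ.injective).eq_iff
    rw [← h2, h1, hdiag]
    constructor
    · intro h i
      have : T = ∅ := card_eq_zero.1 (by omega)
      by_contra hne
      exact (Finset.eq_empty_iff_forall_notMem.1 this i) (mem_filter.2 ⟨mem_univ i, hne⟩)
    · intro h
      rw [hS, filter_true_of_mem fun i _ => h i, card_univ, Fintype.card_fin]
  · rw [card_eq_zero.1 (by omega : T.card = 0), prod_empty]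
  · rw [← rank_le_one_map φ, Matrix.map_sub φ (map_sub φ),
      Matrix.map_one φ (map_zero φ) (map_one φ), hAe,
      show P * Matrix.diagonal e * Q - 1 = P * (Matrix.diagonal e - 1) * Q by
        rw [mul_sub, sub_mul, mul_one, hPQ],
      Matrix.rank_mul_eq_left_of_isUnit_det _ _ (Matrix.isUnit_det_of_left_inverse hPQ),
      Matrix.rank_mul_eq_right_of_isUnit_det _ _ (Matrix.isUnit_det_of_left_inverse hQP),
      ← Matrix.diagonal_one, Matrix.diagonal_sub, Matrix.rank_diagonal, Fintype.card_subtype,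
      show (univ.filter fun i => e i - 1 ≠ 0) = T by simp [hT, sub_ne_zero]]
    omega
  · obtain ⟨i₀, hi₀⟩ := card_eq_one.1 (show T.card = 1 by omega)
    have hdet : φ A.det = e i₀ := by
      rw [RingHom.map_det, RingHom.mapMatrix_apply, hAe, Matrix.det_mul, Matrix.det_mul,
        mul_right_comm, ← Matrix.det_mul, hPQ, Matrix.det_one, one_mul, Matrix.det_diagonal]
      refine prod_eq_single i₀ (fun i _ hi => ?_) (by simp)
      by_contra hne
      exact hi (mem_singleton.1 (hi₀ ▸ mem_filter.2 ⟨mem_univ i, hne⟩))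
    rw [hi₀, prod_singleton, hdet]
    simp

variable (G : Subgroup (GL (Fin n) k)) [Finite G] [CharZero k]

/-- The pseudo-reflections other than `1`. -/
def reflections : Set G :=
  {g | g ≠ 1 ∧ (((g : GL (Fin n) k) : Matrix (Fin n) (Fin n) k) - 1).rank ≤ 1}

/-- Molien's series and that of basic invariants, as polynomials. -/
theorem polynomial_identity [Fintype G] [DecidableEq G]
    {f : Fin n → MvPolynomial (Fin n) k} {d : Fin n → ℕ}
    (hf : ∀ i, 0 < d i ∧ (f i).IsHomogeneous (d i)) (hind : AlgebraicIndependent k f)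
    (hgen : invariants G = Algebra.adjoin k (Set.range f)) :
    (Nat.card G : Polynomial k) *
        ∏ g : G, ((g : GL (Fin n) k) : Matrix (Fin n) (Fin n) k).charpolyRev =
      (∏ i, (1 - X ^ d i)) * ∑ g : G, ∏ h ∈ univ.erase g,
        ((h : GL (Fin n) k) : Matrix (Fin n) (Fin n) k).charpolyRev := by
  refine Polynomial.coe_injective k ?_
  have h := prod_mul_series G hf hind hgen
  have hm := molien G
  rw [show (Fintype.ofFinite G : Fintype G) = ‹Fintype G› from Subsingleton.elim _ _] at hm
  rw [hm] at h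
  simp only [← Polynomial.coeToPowerSeries.ringHom_apply, map_mul, map_natCast, map_prod, map_sum,
    map_sub, map_one, map_pow]
  simp only [Polynomial.coeToPowerSeries.ringHom_apply, Polynomial.coe_X, ← detSeries_eq]
  set D := fun g : G => detSeries ((g : GL (Fin n) k) : Matrix (Fin n) (Fin n) k)
  have hD : ∀ g, D g * (D g)⁻¹ = 1 := fun g =>
    PowerSeries.mul_inv_cancel _ (by simp [D, constantCoeff_detSeries])
  have hsum : (∏ g, D g) * ∑ g, (D g)⁻¹ = ∑ g, ∏ h ∈ univ.erase g, D h := by
    rw [Finset.mul_sum]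
    refine sum_congr rfl fun g _ => ?_
    rw [← mul_prod_erase univ D (mem_univ g), mul_right_comm, hD, one_mul]
  show (Nat.card G : PowerSeries k) * ∏ g, D g = _ * ∑ g, ∏ h ∈ univ.erase g, D h
  have hC : (Nat.card G : PowerSeries k) * PowerSeries.C (Nat.card G : k)⁻¹ = 1 := by
    rw [← map_natCast (PowerSeries.C : k →+* PowerSeries k), ← map_mul,
      mul_inv_cancel₀ (Nat.cast_ne_zero.2 Nat.card_pos.ne'), map_one]
  rw [← hsum]
  linear_combination -((Nat.card G : PowerSeries k) * ∏ g, D g) * h +
    (∏ i, (1 - PowerSeries.X ^ d i)) * (∏ g, D g) * (∑ g, (D g)⁻¹) * hC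

/-- **The degree formulas.** -/
theorem degree_formulas {f : Fin n → MvPolynomial (Fin n) k} {d : Fin n → ℕ}
    (hf : ∀ i, 0 < d i ∧ (f i).IsHomogeneous (d i)) (hind : AlgebraicIndependent k f)
    (hgen : invariants G = Algebra.adjoin k (Set.range f)) :
    ∏ i, d i = Nat.card G ∧ ∑ i, (d i - 1) = Nat.card (reflections G) := by
  classical
  let _ := Fintype.ofFinite G
  let K := AlgebraicClosure k
  let φ : k →+* K := algebraMap k K
  let mat : G → Matrix (Fin n) (Fin n) k := fun g => ((g : GL (Fin n) k) : Matrix (Fin n) (Fin n) k)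
  have hpow : ∀ g : G, mat g ^ Nat.card G = 1 := fun g => by
    rw [← Units.val_pow_eq_pow_val, ← Subgroup.coe_pow, pow_card_eq_one', Subgroup.coe_one,
      Units.val_one]
  choose m P hle hsplit hP1 hone hPone hrank hdet using fun g : G =>
    exists_split (A := mat g) Nat.card_pos (hpow g)
  have hone' : ∀ g, m g = n ↔ g = 1 := fun g => by
    rw [hone, ← Units.val_one]
    exact ⟨fun h => Subtype.ext (Units.ext h), fun h => by subst h; rfl⟩
  have hm1 : m 1 = n := (hone' 1).2 rfl
  set R : Polynomial K := ∏ i, ∑ j ∈ range (d i), X ^ j with hR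
  set T : Polynomial K := ∑ g, (1 - X) ^ (n - m g) * ∏ h ∈ univ.erase g, P h with hT
  have main : (Nat.card G : Polynomial K) * ∏ g, P g = R * T := by
    have h := congrArg (Polynomial.map φ) (polynomial_identity G hf hind hgen)
    simp only [Polynomial.map_mul, Polynomial.map_natCast, Polynomial.map_prod,
      Polynomial.map_sum, Polynomial.map_sub, Polynomial.map_one, Polynomial.map_pow,
      Polynomial.map_X] at h
    have hQ : ∏ i, (1 - X ^ d i : Polynomial K) = (1 - X) ^ n * R := by
      rw [hR, Finset.prod_congr rfl fun i _ => (mul_neg_geom_sum (X : Polynomial K) (d i)).symm,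
        prod_mul_distrib, prod_const, card_univ, Fintype.card_fin]
    have hprod : ∀ s : Finset G, ∏ g ∈ s, (mat g).charpolyRev.map φ =
        (1 - X) ^ (∑ g ∈ s, m g) * ∏ g ∈ s, P g := fun s => by
      rw [← prod_pow_eq_pow_sum, ← prod_mul_distrib]
      exact prod_congr rfl fun g _ => hsplit g
    rw [hQ] at h
    simp only [mat] at hprod
    rw [hprod] at h
    simp only [hprod] at h
    have hexp : ∀ g, ((1 - X : Polynomial K)) ^ n *
        ((1 - X) ^ (∑ h ∈ univ.erase g, m h) * ∏ h ∈ univ.erase g, P h) =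
        (1 - X) ^ (∑ h, m h) * ((1 - X) ^ (n - m g) * ∏ h ∈ univ.erase g, P h) := fun g => by
      rw [← mul_assoc, ← mul_assoc, ← pow_add, ← pow_add]
      congr 2
      have := add_sum_erase univ m (mem_univ g)
      have := hle g
      omega
    have hne : (1 - X : Polynomial K) ^ (∑ h, m h) ≠ 0 := pow_ne_zero _ fun e => by
      have := congrArg (Polynomial.eval 0) e
      simp at this
    refine mul_left_cancel₀ hne ?_
    rw [mul_left_comm, h, hT, mul_comm ((1 - X : Polynomial K) ^ n) R, mul_assoc,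
      Finset.mul_sum univ _ ((1 - X : Polynomial K) ^ n), sum_congr rfl fun g _ => hexp g,
      ← Finset.mul_sum]
    exact mul_left_comm _ _ _
  set u : K := ∏ g, (P g).eval 1 with hu
  have hu0 : u ≠ 0 := prod_ne_zero_iff.2 fun g _ => hP1 g
  have hP_one : P 1 = 1 := hPone 1 hm1
  have hR1 : R.eval 1 = ((∏ i, d i : ℕ) : K) := by simp [hR, eval_prod, eval_finsetSum]
  have herase : ∀ g, (∏ h ∈ univ.erase g, P h).eval 1 = u / (P g).eval 1 := fun g => by
    rw [eval_prod, eq_div_iff (hP1 g), mul_comm]
    exact mul_prod_erase univ (fun h => (P h).eval 1) (mem_univ g)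
  have hT1 : T.eval 1 = u := by
    rw [hT, eval_finsetSum, Finset.sum_eq_single 1]
    · rw [eval_mul, hm1, Nat.sub_self, pow_zero, eval_one, one_mul, herase, hP_one, eval_one,
        div_one]
    · intro g _ hg
      have h1 := hle g
      have h2 : m g ≠ n := fun e => hg ((hone' g).1 e)
      rw [eval_mul, eval_pow, eval_sub, eval_one, eval_X, sub_self, zero_pow (by omega), zero_mul]
    · simp
  have hcard : ∏ i, d i = Nat.card G := by
    have h := congrArg (Polynomial.eval 1) main
    rw [eval_mul, eval_mul, eval_natCast, eval_prod, hR1, hT1, ← hu] at h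
    exact (Nat.cast_injective (mul_right_cancel₀ hu0 h)).symm
  refine ⟨hcard, ?_⟩
  -- the derivatives
  set S := univ.filter fun g : G => m g + 1 = n with hS
  have hSrefl : ∀ g, g ∈ reflections G ↔ g ∈ S := fun g => by
    have h1 := hle g
    have h2 := hrank g
    have h3 := hone' g
    simp only [hS, mem_filter, mem_univ, true_and]
    constructor
    · rintro ⟨hne, hr⟩
      have := h2.2 hr
      have : m g ≠ n := fun e => hne (h3.1 e)
      omega
    · intro h
      exact ⟨fun e => by have := h3.2 e; omega, h2.1 h.ge⟩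
  have hT' : T.derivative.eval 1 =
      (∏ g, P g).derivative.eval 1 - u * ∑ g ∈ S, ((P g).eval 1)⁻¹ := by
    have hterm : ∀ g, ((1 - X) ^ (n - m g) * ∏ h ∈ univ.erase g, P h).derivative.eval 1 =
        (if g = 1 then (∏ g, P g).derivative.eval 1 else 0) -
          if g ∈ S then u * ((P g).eval 1)⁻¹ else 0 := fun g => by
      have h1 := hle g
      have h3 := hone' g
      by_cases hg : g = 1
      · subst hg
        rw [hm1, Nat.sub_self, pow_zero, one_mul, if_pos rfl,
          if_neg (by simp [hS, hm1]), sub_zero, ← mul_prod_erase univ P (mem_univ 1), hP_one,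
          one_mul]
      rw [if_neg hg]
      have hlt : m g ≠ n := fun e => hg (h3.1 e)
      rcases eq_or_ne (m g + 1) n with h | h
      · rw [if_pos (by simp [hS, h]), show n - m g = 1 by omega, pow_one, derivative_mul,
          eval_add, eval_mul, eval_mul, herase]
        simp [div_eq_mul_inv]
      · rw [if_neg (by simp [hS, h]), derivative_mul, derivative_pow, eval_add, eval_mul, eval_mul]
        simp [zero_pow (show n - m g - 1 ≠ 0 by omega), zero_pow (show n - m g ≠ 0 by omega)]
    rw [hT, derivative_sum, eval_finsetSum, sum_congr rfl fun g _ => hterm g, sum_sub_distrib,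
      sum_ite_eq' univ (1 : G), if_pos (mem_univ _), ← sum_filter, filter_mem_eq_inter, univ_inter,
      mul_sum]
  have hR' : 2 * R.derivative.eval 1 = (Nat.card G : K) * ((∑ i, (d i - 1) : ℕ) : K) := by
    rw [hR, derivative_prod_finset, eval_finsetSum, ← hcard, Nat.cast_prod, Nat.cast_sum, mul_sum,
      mul_sum]
    refine sum_congr rfl fun i _ => ?_
    rw [eval_mul, eval_prod, ← mul_prod_erase univ (fun j => (d j : K)) (mem_univ i),
      derivative_sum, eval_finsetSum]
    simp only [eval_finsetSum, eval_pow, eval_X, one_pow, sum_const, card_range, nsmul_one,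
      derivative_X_pow, eval_mul, eval_C, mul_one]
    have h2 : ((2 : ℕ) : K) * ∑ j ∈ range (d i), (j : K) = (d i : K) * ((d i - 1 : ℕ) : K) := by
      rw [← Nat.cast_sum, ← Nat.cast_mul, ← Nat.cast_mul, mul_comm 2, Finset.sum_range_id_mul_two]
    push_cast at h2
    linear_combination (∏ j ∈ univ.erase i, (d j : K)) * h2
  have hsum : ((∑ i, (d i - 1) : ℕ) : K) = 2 * ∑ g ∈ S, ((P g).eval 1)⁻¹ := by
    have h := congrArg (fun p : Polynomial K => p.derivative.eval 1) main
    simp only [derivative_mul, derivative_natCast, zero_mul, zero_add, eval_add, eval_mul,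
      eval_natCast] at h
    rw [hR1, hcard, hT1, hT'] at h
    have hne : (Nat.card G : K) * u ≠ 0 :=
      mul_ne_zero (Nat.cast_ne_zero.2 Nat.card_pos.ne') hu0
    refine mul_left_cancel₀ hne ?_
    linear_combination (-2) * h + (-u) * hR'
  have hinv : ∀ g ∈ S, g⁻¹ ∈ S ∧ ((P g).eval 1)⁻¹ + ((P g⁻¹).eval 1)⁻¹ = 1 := fun g hg => by
    have hg' : g⁻¹ ∈ S := by
      obtain ⟨hne, hr⟩ := (hSrefl g).2 hg
      refine (hSrefl _).1 ⟨inv_ne_one.2 hne, ?_⟩
      rw [Subgroup.coe_inv]
      set M := ((g : GL (Fin n) k) : Matrix (Fin n) (Fin n) k)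
      rw [show ((↑(g : GL (Fin n) k)⁻¹ : Matrix (Fin n) (Fin n) k)) - 1 =
          -((↑(g : GL (Fin n) k)⁻¹ : Matrix (Fin n) (Fin n) k)) * (M - 1) by
        rw [mul_sub, mul_one, neg_mul, Units.inv_mul]; abel]
      exact (Matrix.rank_mul_le_right _ _).trans hr
    refine ⟨hg', ?_⟩
    have e1 := hdet g (mem_filter.1 hg).2
    have e2 := hdet g⁻¹ (mem_filter.1 hg').2
    have hmul : φ (mat g).det * φ (mat g⁻¹).det = 1 := by
      rw [← map_mul, ← Matrix.det_mul, ← Units.val_mul, ← Subgroup.coe_mul, mul_inv_cancel,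
        Subgroup.coe_one, Units.val_one, Matrix.det_one, map_one]
    have n1 := hP1 g
    have n2 := hP1 g⁻¹
    rw [e1, e2] at *
    field_simp
    linear_combination -hmul
  have hpair : 2 * ∑ g ∈ S, ((P g).eval 1)⁻¹ = (S.card : K) := by
    have e : ∑ g ∈ S, ((P g).eval 1)⁻¹ = ∑ g ∈ S, ((P g⁻¹).eval 1)⁻¹ :=
      sum_nbij' (·⁻¹) (·⁻¹) (fun g hg => (hinv g hg).1) (fun g hg => (hinv g hg).1)
        (fun g _ => inv_inv g) (fun g _ => inv_inv g) (fun g _ => by rw [inv_inv])
    rw [two_mul]
    nth_rw 2 [e]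
    rw [← sum_add_distrib, sum_congr rfl fun g hg => (hinv g hg).2, sum_const, nsmul_one]
  rw [Nat.card_coe_set_eq, show reflections G = ↑S from Set.ext hSrefl, Set.ncard_coe_finset]
  exact Nat.cast_injective (hsum.trans hpair)

end FA.Molien
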