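import Fermat.Agent.Molien.Trace
import Fermat.Agent.ReflectionGroups.Main
import Mathlib.LinearAlgebra.Trace

/-!
# Molien's theorem

The average over the group is a projection onto the invariant forms, so their dimension is the
average trace. Basic invariants of degrees `dᵢ` give the series `∏ 1 / (1 - t ^ dᵢ)`.
-/

set_option autoImplicit false

noncomputable section

open MvPolynomial

namespace FA.Molien

open Fermat.Agent.ReflectionGroups

variable {n : ℕ} {k : Type*} [Field k]

/-- The invariant forms of degree `d`. -/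
def invariantForms (G : Subgroup (GL (Fin n) k)) (d : ℕ) :
    Submodule k (MvPolynomial (Fin n) k) :=
  Subalgebra.toSubmodule (invariants G) ⊓ homogeneousSubmodule (Fin n) k d

/-- The form with given coefficients. -/
def ofCoeffs (d : ℕ) : (Expo n d → k) →ₗ[k] MvPolynomial (Fin n) k where
  toFun v := ∑ μ, monomial μ.1 (v μ)
  map_add' v w := by simp [Finset.sum_add_distrib]
  map_smul' c v := by simp [Finset.smul_sum, smul_monomial]

theorem coeff_ofCoeffs {d : ℕ} (v : Expo n d → k) (μ : Expo n d) :
    coeff μ.1 (ofCoeffs d v) = v μ := by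
  classical
  show coeff μ.1 (∑ l, monomial l.1 (v l)) = _
  rw [coeff_sum, Finset.sum_eq_single μ (fun l _ hl => by
    rw [coeff_monomial, if_neg fun e => hl (Subtype.ext e)]) (by simp), coeff_monomial, if_pos rfl]

theorem ofCoeffs_injective (d : ℕ) : Function.Injective (ofCoeffs (n := n) (k := k) d) :=
  fun v w h => funext fun μ => by rw [← coeff_ofCoeffs v μ, h, coeff_ofCoeffs]

theorem isHomogeneous_ofCoeffs {d : ℕ} (v : Expo n d → k) : (ofCoeffs d v).IsHomogeneous d := by
  refine IsHomogeneous.sum _ _ _ fun μ _ => ?_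
  rw [← mul_one (v μ), ← C_mul_monomial]
  exact (isHomogeneous_monomial_expo μ).C_mul _

variable (G : Subgroup (GL (Fin n) k)) [Finite G]

/-- The average on the forms of degree `d`. -/
def averageMatrix (d : ℕ) : Matrix (Expo n d) (Expo n d) k :=
  letI := Fintype.ofFinite G
  (Nat.card G : k)⁻¹ • ∑ g : G, degMatrix ((g : GL (Fin n) k) : Matrix (Fin n) (Fin n) k) d

theorem ofCoeffs_average {d : ℕ} (v : Expo n d → k) :
    ofCoeffs d ((averageMatrix G d).mulVec v) = average G (ofCoeffs d v) := by
  let _ := Fintype.ofFinite G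
  have hact : ∀ g : Matrix (Fin n) (Fin n) k,
      act g (ofCoeffs d v) = ofCoeffs d ((degMatrix g d).mulVec v) := fun g => by
    show act g (∑ ν, monomial ν.1 (v ν)) = ∑ μ, monomial μ.1 ((degMatrix g d).mulVec v μ)
    simp only [Matrix.mulVec, dotProduct, map_sum]
    rw [Finset.sum_comm]
    refine Finset.sum_congr rfl fun ν _ => ?_
    rw [← mul_one (v ν), ← smul_eq_mul, ← smul_monomial, map_smul, act_expand, Finset.smul_sum]
    exact Finset.sum_congr rfl fun μ _ => by
      rw [smul_monomial, smul_eq_mul, smul_eq_mul, mul_one, mul_comm]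
  rw [average, Finset.sum_congr rfl fun g _ => hact _, ← map_sum, ← smul_eq_C_mul, ← map_smul,
    ← Matrix.sum_mulVec, ← Matrix.smul_mulVec, averageMatrix]

variable [CharZero k]

/-- The dimension is the average trace. -/
theorem finrank_invariantForms (d : ℕ) :
    (Module.finrank k (invariantForms G d) : k) = (averageMatrix G d).trace := by
  set E := (averageMatrix G d).mulVecLin
  have hproj : LinearMap.IsProj (LinearMap.range E) E := by
    refine ⟨fun v => LinearMap.mem_range_self E v, ?_⟩
    rintro w ⟨u, rfl⟩
    refine ofCoeffs_injective d ?_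
    simp only [E, Matrix.mulVecLin_apply]
    rw [ofCoeffs_average, ofCoeffs_average, average_eq_self G (average_mem G _)]
  have hV : invariantForms G d = (LinearMap.range E).map (ofCoeffs d) := by
    refine le_antisymm (fun p hp => ?_) ?_
    · obtain ⟨hinv, hhom⟩ := hp
      refine ⟨E (fun μ => coeff μ.1 p), LinearMap.mem_range_self _ _, ?_⟩
      simp only [E, Matrix.mulVecLin_apply]
      rw [ofCoeffs_average, show ofCoeffs d (fun μ : Expo n d => coeff μ.1 p) = p from
        (eq_sum_expo hhom).symm, average_eq_self G hinv]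
    · rintro _ ⟨_, ⟨u, rfl⟩, rfl⟩
      refine ⟨?_, ?_⟩
      · show ofCoeffs d (E u) ∈ invariants G
        simp only [E, Matrix.mulVecLin_apply]
        rw [ofCoeffs_average]
        exact average_mem G _
      · exact isHomogeneous_ofCoeffs _
  rw [hV, ← (Submodule.equivMapOfInjective _ (ofCoeffs_injective d) _).finrank_eq, ← hproj.trace,
    LinearMap.trace_eq_matrix_trace k (Pi.basisFun k (Expo n d)), LinearMap.toMatrix_eq_toMatrix']
  congr 1
  exact LinearMap.toMatrix'_toLin' _

/-- **Molien's theorem.** -/
theorem molien :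
    letI := Fintype.ofFinite G
    (PowerSeries.mk fun d => (Module.finrank k (invariantForms G d) : k)) =
      PowerSeries.C (Nat.card G : k)⁻¹ *
        ∑ g : G, (detSeries ((g : GL (Fin n) k) : Matrix (Fin n) (Fin n) k))⁻¹ := by
  let _ := Fintype.ofFinite G
  have hg : ∀ g : G, (detSeries ((g : GL (Fin n) k) : Matrix (Fin n) (Fin n) k))⁻¹ =
      traceSeries ((g : GL (Fin n) k) : Matrix (Fin n) (Fin n) k) := fun g => by
    refine ((PowerSeries.eq_inv_iff_mul_eq_one (by simp [constantCoeff_detSeries])).2
      (traceSeries_mul_detSeries (N := Nat.card G) Nat.card_pos ?_)).symm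
    rw [← Units.val_pow_eq_pow_val, ← Subgroup.coe_pow, pow_card_eq_one', Subgroup.coe_one,
      Units.val_one]
  ext d
  rw [PowerSeries.coeff_mk, finrank_invariantForms, PowerSeries.coeff_C_mul, map_sum,
    Finset.sum_congr rfl fun g _ => by rw [hg g], averageMatrix, Matrix.trace_smul,
    Matrix.trace_sum, smul_eq_mul]
  simp [traceSeries]

omit [Finite G] [CharZero k] in
theorem finrank_eq_card {m : ℕ} {f : Fin m → MvPolynomial (Fin n) k} {d : Fin m → ℕ}
    (hf : ∀ i, 0 < d i ∧ (f i).IsHomogeneous (d i)) (hind : AlgebraicIndependent k f)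
    (hgen : invariants G = Algebra.adjoin k (Set.range f)) (e : ℕ) :
    Module.finrank k (invariantForms G e) =
      ((Finset.finsuppAntidiag Finset.univ e : Finset (Fin m →₀ ℕ)).filter
        fun l => ∀ i, d i ∣ l i).card := by
  classical
  set J := (Finset.finsuppAntidiag Finset.univ e : Finset (Fin m →₀ ℕ)).filter
    fun l => ∀ i, d i ∣ l i
  have hdiv : ∀ l ∈ J, ∀ i, d i * (l i / d i) = l i := fun l hl i =>
    Nat.mul_div_cancel' ((Finset.mem_filter.1 hl).2 i)
  let ν : J → (Fin m →₀ ℕ) := fun l => Finsupp.equivFunOnFinite.symm fun i => l.1 i / d i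
  have hν : Function.Injective ν := fun l l' h => by
    refine Subtype.ext (Finsupp.ext fun i => ?_)
    have h' := DFunLike.congr_fun h i
    simp only [ν, Finsupp.coe_equivFunOnFinite_symm] at h'
    rw [← hdiv l l.2 i, h', hdiv l' l'.2 i]
  have hw : ∀ l, Finsupp.weight d (ν l) = e := fun l => by
    rw [Finsupp.weight_apply, Finsupp.sum_fintype _ _ (fun i => by simp),
      ← (Finset.mem_finsuppAntidiag.1 (Finset.mem_filter.1 l.2).1).1]
    exact Finset.sum_congr rfl fun i _ => by
      rw [smul_eq_mul, mul_comm]
      simp only [ν, Finsupp.coe_equivFunOnFinite_symm, hdiv l l.2 i]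
  let b : J → MvPolynomial (Fin n) k := fun l => aeval f (monomial (ν l) (1 : k))
  have hli : LinearIndependent k b := by
    have h0 : LinearIndependent k fun l : J => monomial (ν l) (1 : k) := by
      have := (basisMonomials (Fin m) k).linearIndependent.comp ν hν
      simpa [coe_basisMonomials, Function.comp_def] using this
    exact h0.map' (aeval f).toLinearMap (LinearMap.ker_eq_bot.2 hind)
  have hspan : Submodule.span k (Set.range b) = invariantForms G e := by
    refine le_antisymm (Submodule.span_le.2 ?_) fun p ⟨hp, hhom⟩ => ?_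
    · rintro _ ⟨l, rfl⟩
      refine ⟨?_, ?_⟩
      · show b l ∈ invariants G
        rw [hgen, Algebra.adjoin_range_eq_range_aeval]
        exact ⟨_, rfl⟩
      · show (b l).IsHomogeneous e
        rw [← hw l]
        exact isHomogeneous_aeval (fun i => (hf i).2) (ν l) 1
    · have hp' : p ∈ invariants G := hp
      rw [hgen, Algebra.adjoin_range_eq_range_aeval] at hp'
      obtain ⟨H, rfl⟩ := hp'
      change (aeval f H).IsHomogeneous e at hhom
      rw [show (aeval f : MvPolynomial (Fin m) k →ₐ[k] _).toRingHom H = aeval f H from rfl,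
        ← homogeneousComponent_eq_self hhom, component_aeval fun i => (hf i).2]
      rw [(weightedHomogeneousComponent d e H).as_sum, map_sum]
      refine Submodule.sum_mem _ fun μ hμ => ?_
      have hμw : Finsupp.weight d μ = e := by
        rw [mem_support_iff, coeff_weightedHomogeneousComponent] at hμ
        by_contra hne
        exact hμ (if_neg hne)
      have hμJ : Finsupp.equivFunOnFinite.symm (fun i => d i * μ i) ∈ J := by
        refine Finset.mem_filter.2 ⟨Finset.mem_finsuppAntidiag.2 ⟨?_, Finset.subset_univ _⟩,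
          fun i => by simp⟩
        rw [← hμw, Finsupp.weight_apply, Finsupp.sum_fintype _ _ (fun i => by simp)]
        exact Finset.sum_congr rfl fun i _ => by simp [mul_comm]
      have hνμ : ν ⟨_, hμJ⟩ = μ := Finsupp.ext fun i => by
        simp [ν, Nat.mul_div_cancel_left _ (hf i).1]
      rw [← mul_one (coeff μ _), ← smul_eq_mul, ← smul_monomial, map_smul]
      exact Submodule.smul_mem _ _ (Submodule.subset_span ⟨⟨_, hμJ⟩, by simp only [b, hνμ]⟩)
  rw [← hspan, finrank_span_eq_card hli, Fintype.card_coe]

omit [Finite G] [CharZero k] in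
/-- The series of basic invariants. -/
theorem prod_mul_series {m : ℕ} {f : Fin m → MvPolynomial (Fin n) k} {d : Fin m → ℕ}
    (hf : ∀ i, 0 < d i ∧ (f i).IsHomogeneous (d i)) (hind : AlgebraicIndependent k f)
    (hgen : invariants G = Algebra.adjoin k (Set.range f)) :
    (∏ i, (1 - PowerSeries.X ^ d i)) *
      (PowerSeries.mk fun e => (Module.finrank k (invariantForms G e) : k)) = 1 := by
  classical
  have h1 : (PowerSeries.mk fun e => (Module.finrank k (invariantForms G e) : k)) =
      ∏ i, PowerSeries.mk fun j => if d i ∣ j then (1 : k) else 0 := by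
    ext e
    rw [PowerSeries.coeff_mk, PowerSeries.coeff_prod, finrank_eq_card G hf hind hgen,
      ← Finset.sum_boole]
    simp only [PowerSeries.coeff_mk, Finset.prod_boole, Finset.mem_univ, true_implies]
  rw [h1, ← Finset.prod_mul_distrib]
  refine Finset.prod_eq_one fun i _ => ?_
  ext j
  rw [sub_mul, one_mul, map_sub, PowerSeries.coeff_X_pow_mul', PowerSeries.coeff_mk,
    PowerSeries.coeff_one]
  have hd := (hf i).1
  rcases le_or_gt (d i) j with h | h
  · rw [if_pos h, PowerSeries.coeff_mk, if_neg (by omega : j ≠ 0)]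
    simp [Nat.dvd_sub_iff_left h dvd_rfl]
  · rw [if_neg (not_le.2 h), sub_zero]
    exact if_congr ⟨fun hj => Nat.eq_zero_of_dvd_of_lt hj h, fun e => e ▸ dvd_zero _⟩ rfl rfl

end FA.Molien
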