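import Fermat.Agent.ReflectionGroups.Basic
import Mathlib.LinearAlgebra.Matrix.Charpoly.Coeff
import Mathlib.LinearAlgebra.Eigenspace.Semisimple
import Mathlib.LinearAlgebra.Matrix.NonsingularInverse
import Mathlib.RingTheory.PowerSeries.Inverse
import Mathlib.FieldTheory.IsAlgClosed.AlgebraicClosure
import Mathlib.FieldTheory.Separable

/-!
# The trace of a matrix of finite order on the forms of each degree

Over an algebraically closed field of characteristic zero such a matrix is conjugate to a diagonal
one, for which the monomials are eigenvectors; so the traces on the degrees are the coefficients of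
`1 / det (1 - t A)`.
-/

set_option autoImplicit false

noncomputable section

open MvPolynomial

namespace FA.Molien

open Fermat.Agent.ReflectionGroups

variable {n : ℕ} {k : Type*} [Field k]

/-- The exponents of degree `d`. -/
abbrev Expo (n d : ℕ) : Finset (Fin n →₀ ℕ) := Finset.finsuppAntidiag Finset.univ d

/-- The matrix of `act A` on the forms of degree `d`, in the monomials. -/
def degMatrix (A : Matrix (Fin n) (Fin n) k) (d : ℕ) : Matrix (Expo n d) (Expo n d) k :=
  fun μ ν => coeff μ.1 (act A (monomial ν.1 1))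

theorem mem_expo {μ : Fin n →₀ ℕ} {d : ℕ} : μ ∈ Expo n d ↔ ∑ i, μ i = d := by
  simp [Expo, Finset.mem_finsuppAntidiag]

theorem isHomogeneous_monomial_expo {d : ℕ} (ν : Expo n d) :
    (monomial ν.1 (1 : k)).IsHomogeneous d := by
  refine isHomogeneous_monomial _ ?_
  rw [Finsupp.degree_apply,
    Finset.sum_subset (Finset.subset_univ _) fun i _ hi => by simpa using hi]
  exact mem_expo.1 ν.2

/-- A form of degree `d` in the monomials. -/
theorem eq_sum_expo {d : ℕ} {p : MvPolynomial (Fin n) k} (hp : p.IsHomogeneous d) :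
    p = ∑ μ : Expo n d, monomial μ.1 (coeff μ.1 p) := by
  classical
  ext ν
  rw [coeff_sum]
  simp only [coeff_monomial]
  by_cases hν : ν ∈ Expo n d
  · rw [Finset.sum_eq_single ⟨ν, hν⟩ (fun μ _ hμ => if_neg fun e => hμ (Subtype.ext e))
      (fun h => absurd (Finset.mem_univ _) h), if_pos rfl]
  · rw [Finset.sum_eq_zero fun μ _ => if_neg fun (e : μ.1 = ν) => hν (e ▸ μ.2)]
    by_contra hne
    refine hν (mem_expo.2 ?_)
    have := hp hne
    rwa [Finsupp.weight_apply, Finsupp.sum_fintype _ _ (fun _ => by simp),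
      Finset.sum_congr rfl fun i _ => show ν i • (1 : Fin n → ℕ) i = ν i by simp] at this

theorem act_expand (A : Matrix (Fin n) (Fin n) k) {d : ℕ} (ν : Expo n d) :
    act A (monomial ν.1 1) = ∑ μ : Expo n d, monomial μ.1 (degMatrix A d μ ν) :=
  eq_sum_expo (isHomogeneous_act A (isHomogeneous_monomial_expo ν))

theorem degMatrix_mul (A B : Matrix (Fin n) (Fin n) k) (d : ℕ) :
    degMatrix (A * B) d = degMatrix A d * degMatrix B d := by
  ext μ ν
  rw [degMatrix, act_mul, act_expand B ν, map_sum, coeff_sum, Matrix.mul_apply]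
  refine Finset.sum_congr rfl fun l _ => ?_
  rw [← mul_one (degMatrix B d l ν), ← smul_eq_mul, ← smul_monomial, map_smul, coeff_smul,
    smul_eq_mul, smul_eq_mul, mul_one, mul_comm]
  rfl

theorem degMatrix_one (d : ℕ) : degMatrix (1 : Matrix (Fin n) (Fin n) k) d = 1 := by
  classical
  ext μ ν
  rw [degMatrix, act_one, coeff_monomial, Matrix.one_apply]
  exact if_congr ⟨fun e => Subtype.ext e.symm, fun e => by rw [e]⟩ rfl rfl

theorem act_map {K : Type*} [Field K] (φ : k →+* K) (A : Matrix (Fin n) (Fin n) k)
    (p : MvPolynomial (Fin n) k) :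
    map φ (act A p) = act (A.map φ) (map φ p) := by
  induction p using MvPolynomial.induction_on with
  | C a => simp [act]
  | add p q hp hq => simp only [map_add, hp, hq]
  | mul_X p j hp => simp [map_mul, hp, act_X, map_sum]

theorem degMatrix_map {K : Type*} [Field K] (φ : k →+* K) (A : Matrix (Fin n) (Fin n) k) (d : ℕ) :
    degMatrix (A.map φ) d = (degMatrix A d).map φ := by
  ext μ ν
  rw [Matrix.map_apply, degMatrix, degMatrix, ← coeff_map, act_map, map_monomial, map_one φ]

theorem act_diagonal (e : Fin n → k) (ν : Fin n →₀ ℕ) :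
    act (Matrix.diagonal e) (monomial ν 1) = monomial ν (∏ i, e i ^ ν i) := by
  have hX : ∀ j, act (Matrix.diagonal e) (X j) = C (e j) * X j := fun j => by
    rw [act_X, Finset.sum_eq_single j (fun i _ hi => by simp [Matrix.diagonal_apply_ne _ hi])
      (by simp), Matrix.diagonal_apply_eq]
  rw [monomial_eq, monomial_eq, C_1, one_mul, Finsupp.prod_fintype _ _ (fun _ => pow_zero _),
    map_prod, map_prod, ← Finset.prod_mul_distrib]
  exact Finset.prod_congr rfl fun i _ => by rw [map_pow, hX, mul_pow, map_pow]

/-- The traces on the degrees, as a series. -/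
def traceSeries (A : Matrix (Fin n) (Fin n) k) : PowerSeries k :=
  PowerSeries.mk fun d => (degMatrix A d).trace

/-- `det (1 - t A)` as a series. -/
def detSeries (A : Matrix (Fin n) (Fin n) k) : PowerSeries k :=
  ((1 : Matrix (Fin n) (Fin n) (PowerSeries k)) -
    (PowerSeries.X : PowerSeries k) • A.map (PowerSeries.C : k →+* PowerSeries k)).det

theorem detSeries_eq (A : Matrix (Fin n) (Fin n) k) :
    detSeries A = ((A.charpolyRev : Polynomial k) : PowerSeries k) := by
  refine (?_ : detSeries A = Polynomial.coeToPowerSeries.ringHom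
    (1 - (Polynomial.X : Polynomial k) • A.map (Polynomial.C : k →+* Polynomial k)).det).trans rfl
  rw [detSeries, RingHom.map_det]
  congr 1
  ext i j
  simp [Matrix.one_apply, apply_ite]
  exact mul_comm _ _

theorem constantCoeff_detSeries (A : Matrix (Fin n) (Fin n) k) :
    PowerSeries.constantCoeff (detSeries A) = 1 := by
  rw [detSeries_eq, ← PowerSeries.coeff_zero_eq_constantCoeff_apply, Polynomial.coeff_coe]
  rw [Polynomial.coeff_zero_eq_eval_zero, Matrix.eval_charpolyRev]

/-- Conjugate to a diagonal matrix. -/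
theorem exists_diagonal [CharZero k] [IsAlgClosed k] {A : Matrix (Fin n) (Fin n) k} {N : ℕ}
    (hN : 0 < N) (hA : A ^ N = 1) :
    ∃ (P Q : Matrix (Fin n) (Fin n) k) (e : Fin n → k),
      P * Q = 1 ∧ Q * P = 1 ∧ A = P * Matrix.diagonal e * Q ∧ ∀ i, e i ^ N = 1 := by
  classical
  obtain ⟨f, hf⟩ : ∃ f : Module.End k (Fin n → k), f = Matrix.toLinAlgEquiv' A := ⟨_, rfl⟩
  have hfN : f ^ N = 1 := by rw [hf, ← map_pow, hA, map_one]
  have hss : f.IsSemisimple := by
    refine Module.End.isSemisimple_of_squarefree_aeval_eq_zero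
      (p := Polynomial.X ^ N - Polynomial.C 1)
      ((Polynomial.separable_X_pow_sub_C (1 : k) (Nat.cast_ne_zero.2 hN.ne')
        one_ne_zero).squarefree)
      ?_
    simp [hfN]
  have hspan : Submodule.span k {v : Fin n → k | ∃ c : k, f v = c • v} = ⊤ := by
    rw [eq_top_iff, ← hss.iSup_eigenspace_eq_top, iSup_le_iff]
    exact fun c v hv => Submodule.subset_span ⟨c, Module.End.mem_eigenspace_iff.1 hv⟩
  obtain ⟨b, hbsub, hbspan, hli⟩ :=
    exists_linearIndependent k {v : Fin n → k | ∃ c : k, f v = c • v}
  rw [hspan] at hbspan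
  let B : Module.Basis b k (Fin n → k) := Module.Basis.mk hli (by
    rw [Subtype.range_coe_subtype, Set.ofPred_mem_eq]
    exact hbspan.ge)
  have : Finite b := Module.Finite.finite_basis B
  have := Fintype.ofFinite b
  have σ : Fin n ≃ b := (Fintype.equivFinOfCardEq (by
    rw [← Module.finrank_eq_card_basis B, Module.finrank_fin_fun])).symm
  choose c hc using fun i => hbsub (σ i).2
  set P : Matrix (Fin n) (Fin n) k := fun i j => (σ j).1 i
  have hP : IsUnit P := by
    rw [← Matrix.linearIndependent_cols_iff_isUnit]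
    exact hli.comp _ σ.injective
  obtain ⟨u, hu⟩ := hP
  have hAP : A * P = P * Matrix.diagonal c := by
    ext i j
    rw [Matrix.mul_diagonal]
    have h := congrFun (hc j) i
    rw [hf, Matrix.toLinAlgEquiv'_apply] at h
    rw [Matrix.mul_apply]
    simpa [Matrix.mulVec, dotProduct, mul_comm, P] using h
  refine ⟨P, (↑u⁻¹ : Matrix (Fin n) (Fin n) k), c, by rw [← hu, Units.mul_inv],
    by rw [← hu, Units.inv_mul], by rw [← hAP, mul_assoc, ← hu, Units.mul_inv, mul_one],
    fun i => ?_⟩
  have hv : (σ i).1 ≠ 0 := hli.ne_zero (σ i)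
  have hpow : ∀ m : ℕ, (f ^ m) (σ i).1 = c i ^ m • (σ i).1 := fun m => by
    induction m with
    | zero => simp
    | succ m ih => rw [pow_succ', Module.End.mul_apply, ih, map_smul, hc, smul_smul, ← pow_succ]
  have h1 := hpow N
  rw [hfN, Module.End.one_apply] at h1
  by_contra hne
  refine hv (smul_right_injective (Fin n → k) (sub_ne_zero.2 hne) ?_)
  simp only [smul_zero, sub_smul, one_smul, ← h1, sub_self]

theorem trace_degMatrix_conj {A P Q D : Matrix (Fin n) (Fin n) k} (hQP : Q * P = 1)
    (hA : A = P * D * Q) (d : ℕ) : (degMatrix A d).trace = (degMatrix D d).trace := by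
  rw [hA, degMatrix_mul, degMatrix_mul, Matrix.trace_mul_comm, ← mul_assoc, ← degMatrix_mul Q P,
    hQP, degMatrix_one, one_mul]

theorem trace_degMatrix_diagonal (e : Fin n → k) (d : ℕ) :
    (degMatrix (Matrix.diagonal e) d).trace = ∑ μ ∈ Expo n d, ∏ i, e i ^ μ i := by
  refine (Finset.sum_congr rfl fun μ _ => ?_).trans
    (Finset.sum_coe_sort (Expo n d) fun μ => ∏ i, e i ^ μ i)
  rw [Matrix.diag_apply, degMatrix, act_diagonal, coeff_monomial, if_pos rfl]

/-- A finite order matrix has the eigenvalues of its diagonal form. -/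
theorem charpolyRev_conj {A P Q : Matrix (Fin n) (Fin n) k} {e : Fin n → k} (hPQ : P * Q = 1)
    (hA : A = P * Matrix.diagonal e * Q) :
    A.charpolyRev = ∏ i, (1 - Polynomial.X * Polynomial.C (e i)) := by
  have hm : ∀ B C : Matrix (Fin n) (Fin n) k,
      (B * C).map (Polynomial.C : k →+* Polynomial k) =
        B.map Polynomial.C * C.map Polynomial.C := fun B C => Matrix.map_mul
  have h1 : P.map (Polynomial.C : k →+* Polynomial k) * Q.map Polynomial.C = 1 := by
    rw [← hm, hPQ, Matrix.map_one _ (map_zero _) (map_one _)]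
  rw [Matrix.charpolyRev, hA, hm, hm]
  rw [show (1 : Matrix (Fin n) (Fin n) (Polynomial k)) - (Polynomial.X : Polynomial k) •
      (P.map (Polynomial.C : k →+* Polynomial k) *
        (Matrix.diagonal e).map (Polynomial.C : k →+* Polynomial k) *
          Q.map (Polynomial.C : k →+* Polynomial k)) =
      P.map (Polynomial.C : k →+* Polynomial k) * (1 - (Polynomial.X : Polynomial k) •
        (Matrix.diagonal e).map (Polynomial.C : k →+* Polynomial k)) *
          Q.map (Polynomial.C : k →+* Polynomial k) by
    rw [mul_sub, sub_mul, mul_one, h1, mul_smul_comm, smul_mul_assoc]]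
  rw [Matrix.det_mul, Matrix.det_mul, mul_right_comm, ← Matrix.det_mul, h1, Matrix.det_one,
    one_mul, Matrix.diagonal_map (map_zero _), ← Matrix.diagonal_one, ← Matrix.diagonal_smul,
    Matrix.diagonal_sub, Matrix.det_diagonal]
  rfl

/-- **MacMahon's identity**, for a matrix of finite order. -/
theorem traceSeries_mul_detSeries [CharZero k] {A : Matrix (Fin n) (Fin n) k} {N : ℕ}
    (hN : 0 < N) (hA : A ^ N = 1) : traceSeries A * detSeries A = 1 := by
  classical
  let φ := algebraMap k (AlgebraicClosure k)
  have hAK : (A.map φ) ^ N = 1 := by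
    rw [← RingHom.mapMatrix_apply, ← map_pow, hA, map_one]
  have key : traceSeries (A.map φ) * detSeries (A.map φ) = 1 := by
    obtain ⟨P, Q, e, hPQ, hQP, hAe, -⟩ := exists_diagonal hN hAK
    have h1 : traceSeries (A.map φ) = ∏ i, PowerSeries.mk fun j => e i ^ j := by
      ext d
      rw [traceSeries, PowerSeries.coeff_mk, trace_degMatrix_conj hQP hAe,
        trace_degMatrix_diagonal, PowerSeries.coeff_prod]
      simp only [PowerSeries.coeff_mk]
    rw [h1, detSeries_eq, charpolyRev_conj hPQ hAe, ← Polynomial.coeToPowerSeries.ringHom_apply,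
      map_prod, ← Finset.prod_mul_distrib]
    refine Finset.prod_eq_one fun i _ => ?_
    rw [Polynomial.coeToPowerSeries.ringHom_apply, Polynomial.coe_sub, Polynomial.coe_one,
      Polynomial.coe_mul, Polynomial.coe_X, Polynomial.coe_C, mul_sub, mul_one]
    ext (_ | d)
    · simp [PowerSeries.constantCoeff_mk]
    · rw [map_sub, ← mul_assoc, mul_comm (_ * PowerSeries.X), PowerSeries.coeff_C_mul,
        PowerSeries.coeff_succ_mul_X, PowerSeries.coeff_mk, PowerSeries.coeff_mk,
        PowerSeries.coeff_one]
      simp [pow_succ, mul_comm]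
  refine PowerSeries.map_injective φ φ.injective ?_
  rw [map_mul, map_one, ← key]
  congr 1
  · ext d
    rw [PowerSeries.coeff_map, traceSeries, traceSeries, PowerSeries.coeff_mk, PowerSeries.coeff_mk,
      degMatrix_map]
    simp [Matrix.trace, map_sum]
  · rw [detSeries, detSeries, RingHom.map_det]
    congr 1
    ext i j
    simp [Matrix.one_apply, apply_ite]

end FA.Molien
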